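import Fermat.Agent.S59.Datum.H57_ResEq
import Fermat.Agent.S59.Asm.Plumb2
import Fermat.Agent.Lib.EllFinite.Main

/-!
# S59, package LL, leaf BRIDGE-RES (helper77)

The residual representation of a `p`-adic representation `ρ` with the Frobenius characteristic
polynomials of a curve `W` (e.g. its Tate module, `Stmt_Tate`) is the `p`-torsion representation
`residualGaloisRepOf W p` (base changed to the residue field), and so has the same ramification.

* `charpoly_residualGaloisRepOf` : Frobenius characteristic polynomials of `E[p]` (item 62).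
* `bridgeRes` : `(E[p] ⊗ k).IsEquiv ρ.residual` (Frobenius density + Carayol over a field,
  `Datum.H57.stmt_ResEq`).
* `unramified_iff_of_bridgeRes` : `ρ.residual` is unramified at `q` iff `E[p]` is.
-/

set_option autoImplicit false
set_option linter.unusedSectionVars false
set_option linter.unusedVariables false

open Polynomial IsLocalRing WeierstrassCurve WeierstrassCurve.Affine
open scoped TensorProduct

namespace Fermat.Agent.S59.LL.H77

open Fermat.Agent.S59 Fermat.Agent.S59.Asm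

/-- the `p`-torsion representation of an integral Weierstrass curve -/
noncomputable abbrev torsRep (W : WeierstrassCurve ℤ) (p : ℕ) [Fact p.Prime]
    (hcard₁ : Nat.card (Submodule.torsionBy ℤ
      ((W.map (Int.castRingHom ℚ))⁄(AlgebraicClosure ℚ)).Point p) = p ^ 2)
    (hker : GaloisFactorsThroughFiniteLevel
      (WeierstrassCurve.Affine.Point.galoisRepModuleEnd (K := AlgebraicClosure ℚ) ℚ
        (W.map (Int.castRingHom ℚ)) p)) : ResidualGaloisRep (ZMod p) :=
  (W.map (Int.castRingHom ℚ)).residualGaloisRepOf p hcard₁ hker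

/-- Frobenius characteristic polynomials of `E[p]` at the good primes `ℓ ≠ p` (item 62). -/
theorem charpoly_residualGaloisRepOf (W : WeierstrassCurve ℤ) (p : ℕ) [Fact p.Prime]
    (hcard₁ : Nat.card (Submodule.torsionBy ℤ
      ((W.map (Int.castRingHom ℚ))⁄(AlgebraicClosure ℚ)).Point p) = p ^ 2)
    (hker : GaloisFactorsThroughFiniteLevel
      (WeierstrassCurve.Affine.Point.galoisRepModuleEnd (K := AlgebraicClosure ℚ) ℚ
        (W.map (Int.castRingHom ℚ)) p))
    (ℓ : ℕ) (hℓ : ℓ.Prime) (hpℓ : p ≠ ℓ) (hgood : W.IsGoodPrimeFor ℓ)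
    (A : ValuationSubring (AlgebraicClosure ℚ)) (hA : A.LiesOverPrime ℓ)
    (σ : AlgebraicClosure ℚ ≃ₐ[ℚ] AlgebraicClosure ℚ) (hσ : A.IsFrobeniusAt σ ℓ) :
    LinearMap.charpoly ((torsRep W p hcard₁ hker).ρ σ) =
      X ^ 2 - C (((W.apOfModel ℓ : ℤ) : ZMod p)) * X + C ((ℓ : ZMod p)) := by
  obtain ⟨-, htr, hdet⟩ :=
    Fermat.Agent.Lib.EllFinite.stmt_main W p ℓ hℓ hpℓ hgood A hA σ hσ
  rw [Fermat.Agent.R.H91.charpoly_eq_of_finrank_two (torsRep W p hcard₁ hker).finrank_eq]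
  have h1 : LinearMap.trace (ZMod p) _ ((torsRep W p hcard₁ hker).ρ σ) =
      ((W.apOfModel ℓ : ℤ) : ZMod p) := htr
  have h2 : LinearMap.det ((torsRep W p hcard₁ hker).ρ σ) = (ℓ : ZMod p) := hdet
  rw [h1, h2]

/-- **BRIDGE-RES.** -/
theorem bridgeRes (W : WeierstrassCurve ℤ) (hΔ : W.Δ ≠ 0) (p : ℕ) [Fact p.Prime]
    (hcard₁ : Nat.card (Submodule.torsionBy ℤ
      ((W.map (Int.castRingHom ℚ))⁄(AlgebraicClosure ℚ)).Point p) = p ^ 2)
    (hker : GaloisFactorsThroughFiniteLevel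
      (WeierstrassCurve.Affine.Point.galoisRepModuleEnd (K := AlgebraicClosure ℚ) ℚ
        (W.map (Int.castRingHom ℚ)) p))
    {𝒪 : Type} [CommRing 𝒪] [IsLocalRing 𝒪] (j : ZMod p →+* ResidueField 𝒪)
    (ρ : GaloisRepAdic 𝒪) (S : Finset ℕ)
    (hfrob : ∀ ℓ : ℕ, ℓ.Prime → ℓ ≠ p → ℓ ∉ S → W.IsGoodPrimeFor ℓ →
      ∀ A : ValuationSubring (AlgebraicClosure ℚ), A.LiesOverPrime ℓ →
        ∀ σ : AlgebraicClosure ℚ ≃ₐ[ℚ] AlgebraicClosure ℚ, A.IsFrobeniusAt σ ℓ →
          LinearMap.charpoly (ρ.ρ σ) =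
            X ^ 2 - C (((W.apOfModel ℓ : ℤ) : 𝒪)) * X + C ((ℓ : 𝒪)))
    (hirr : ρ.residual.IsAbsolutelyIrreducible) :
    ((torsRep W p hcard₁ hker).baseChangeAlong j).IsEquiv ρ.residual := by
  classical
  refine Fermat.Agent.S59.Datum.H57.stmt_ResEq (ResidueField 𝒪) _ _
    (S ∪ {p} ∪ W.Δ.natAbs.primeFactors) hirr ?_
  intro ℓ hℓ hℓS B hB σ hσ
  have hℓS' : ℓ ∉ S := fun h => hℓS (Finset.mem_union_left _ (Finset.mem_union_left _ h))
  have hℓp : ℓ ≠ p := fun h => hℓS (Finset.mem_union_left _ (Finset.mem_union_right _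
    (Finset.mem_singleton.2 h)))
  have hgood : W.IsGoodPrimeFor ℓ := by
    intro hdvd
    refine hℓS (Finset.mem_union_right _ (Nat.mem_primeFactors.2 ⟨hℓ, ?_, ?_⟩))
    · exact Int.natCast_dvd.1 hdvd
    · exact Int.natAbs_ne_zero.2 hΔ
  rw [charpoly_bcAlong_resid, charpoly_residualGaloisRepOf W p hcard₁ hker ℓ hℓ hℓp.symm hgood
    B hB σ hσ, charpoly_resid, hfrob ℓ hℓ hℓp hℓS' hgood B hB σ hσ]
  simp only [Polynomial.map_add, Polynomial.map_sub, Polynomial.map_mul, Polynomial.map_pow,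
    Polynomial.map_X, map_intCast, map_natCast, Polynomial.map_intCast, Polynomial.map_natCast]

/-- triviality descends along a base change of residual representations -/
theorem eq_one_of_bcAlong_resid_eq_one {k k' : Type} [Field k] [Field k'] (j : k →+* k')
    (ρ : ResidualGaloisRep k) (σ : AlgebraicClosure ℚ ≃ₐ[ℚ] AlgebraicClosure ℚ)
    (h : (ρ.baseChangeAlong j).ρ σ = 1) : ρ.ρ σ = 1 := by
  let _ : Algebra k k' := j.toAlgebra
  have h1 : (ρ.ρ σ).baseChange k' = 1 := h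
  refine LinearMap.ext fun v => ?_
  have h2 := congrArg (fun F : Module.End k' (k' ⊗[k] ρ.V) => F ((1 : k') ⊗ₜ[k] v)) h1
  simp only [LinearMap.baseChange_tmul, Module.End.one_apply] at h2
  have hinj : Function.Injective (TensorProduct.mk k k' ρ.V 1) :=
    Module.Flat.tensorProduct_mk_injective (R := k) (S := k') (M := ρ.V)
  exact hinj h2

/-- **BRIDGE-RES**, ramification: `ρ.residual` is unramified at `q` iff `E[p]` is. -/
theorem unramified_iff_of_isEquiv {k k' : Type} [Field k] [Field k'] (j : k →+* k')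
    (ρ₀ : ResidualGaloisRep k) (ρ₁ : ResidualGaloisRep k')
    (h : (ρ₀.baseChangeAlong j).IsEquiv ρ₁) (q : ℕ) :
    ρ₁.IsUnramifiedAt q ↔ ρ₀.IsUnramifiedAt q := by
  constructor
  · intro hu A hA σ hσ
    exact eq_one_of_bcAlong_resid_eq_one j ρ₀ σ (eq_one_of_isEquiv_resid h σ (hu A hA σ hσ))
  · intro hu A hA σ hσ
    obtain ⟨e⟩ := h
    exact eq_one_of_isEquiv_resid ⟨e.symm⟩ σ (bcAlong_resid_eq_one j ρ₀ σ (hu A hA σ hσ))

end Fermat.Agent.S59.LL.H77
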