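import Mathlib
import Fermat.Prelude.Def_GaloisRep_Residual
import Fermat.Prelude.Def_FLTPrelim_ModularRep
import Fermat.Prelude.Def_WeierstrassCurve_PeuRamifiee

/-!
# S59, package LL (helper40): level optimisation, elliptic-curve form

Plan: `NOTES/plan/S59_LL.md`.  Everything here is hypothesis-parametric (no unfinished statement
is imported).

* `Stmt_S38` : the frozen type of S38 (remove a prime `q ≠ p`, `q ∥ M`, `M` squarefree, at which
  `E[p]` is unramified).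
* `Stmt_S39` : the frozen type of S39 (remove `p ∥ M` when `p ∣ v_p(Δ)`).
* `Stmt_SQ`  : SQUARE removal: `q² ∥ M`, `q ≠ p`  ⟹  level `M / q`.  (NEW package, no exceptional
  case; see the plan.)
* `Stmt_LLec` : a semistable curve with irreducible `E[p]` which is residually modular of a level
  `M₀` (`p² ∤ M₀`, cube-free away from `p`) is residually modular of a squarefree level `N ∣ M₀`
  such that `E[p]` is ramified at every prime `q ≠ p` dividing `N`, and `p ∤ v_p(Δ)` if `p ∣ N`.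
* `llec_of : Stmt_SQ → Stmt_S38 → Stmt_S39 → Stmt_LLec` (bookkeeping, proved here).
-/

set_option autoImplicit false

open WeierstrassCurve WeierstrassCurve.Affine WeierstrassCurve.Affine.Point

namespace Fermat.Agent.S59.LL

/-- The frozen type of S38. -/
def Stmt_S38 : Prop :=
  ∀ (p : ℕ) [Fact p.Prime] (_hp2 : p ≠ 2) (W : WeierstrassCurve ℤ) (_hΔ : W.Δ ≠ 0)
    (_hW : W.IsSemistableModel)
    (hcard₁ : Nat.card (Submodule.torsionBy ℤ
      ((W.map (Int.castRingHom ℚ))⁄(AlgebraicClosure ℚ)).Point p) = p ^ 2)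
    (hker : GaloisFactorsThroughFiniteLevel
      (WeierstrassCurve.Affine.Point.galoisRepModuleEnd (K := AlgebraicClosure ℚ) ℚ
        (W.map (Int.castRingHom ℚ)) p))
    (_hirr : W.ModRepIsIrreducible p) (M q : ℕ) (_hq : q.Prime) (_hqp : q ≠ p)
    (_hqM : q ∣ M) (_hq2 : ¬ q ^ 2 ∣ M) (_hM : Squarefree M)
    (_hunr : ((W.map (Int.castRingHom ℚ)).residualGaloisRepOf p hcard₁ hker).IsUnramifiedAt q)
    (_hres : W.IsResiduallyModularOfLevel p M),
    W.IsResiduallyModularOfLevel p (M / q)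

/-- The frozen type of S39. -/
def Stmt_S39 : Prop :=
  ∀ (W : WeierstrassCurve ℤ) (_hΔ : W.Δ ≠ 0)
    {p : ℕ} (_hp : p.Prime) (_hp2 : p ≠ 2)
    (_hsemi : (p : ℤ) ∣ W.Δ → ¬ (p : ℤ) ∣ W.c₄)
    (_hirr : W.ModRepIsIrreducible p)
    (_hfin : (W.map (Int.castRingHom ℚ)).IsPeuRamifieeAt p p)
    {M : ℕ} (_hM : 0 < M) (_hpM : p ∣ M) (_hp2M : ¬ p ^ 2 ∣ M)
    (_hmod : W.IsResiduallyModularOfLevel p M),
    W.IsResiduallyModularOfLevel p (M / p)

/-- **SQUARE removal.**  `q² ∥ M`, `q ≠ p`: the level can be divided by `q`.  (For a semistable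
curve the inertia group at `q` acts unipotently on `E[p]`, so `E[p]` has a nonzero inertia-fixed
vector; this is all that is used.) -/
def Stmt_SQ : Prop :=
  ∀ (p : ℕ) [Fact p.Prime] (_hp2 : p ≠ 2) (W : WeierstrassCurve ℤ) (_hΔ : W.Δ ≠ 0)
    (_hW : W.IsSemistableModel) (_hirr : W.ModRepIsIrreducible p) (M q : ℕ) (_hq : q.Prime)
    (_hqp : q ≠ p) (_hq2 : q ^ 2 ∣ M) (_hq3 : ¬ q ^ 3 ∣ M)
    (_hres : W.IsResiduallyModularOfLevel p M),
    W.IsResiduallyModularOfLevel p (M / q)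

/-- **LL, elliptic-curve form.** -/
def Stmt_LLec : Prop :=
  ∀ (p : ℕ) [Fact p.Prime] (_hp2 : p ≠ 2) (W : WeierstrassCurve ℤ) (_hΔ : W.Δ ≠ 0)
    (_hW : W.IsSemistableModel)
    (hcard₁ : Nat.card (Submodule.torsionBy ℤ
      ((W.map (Int.castRingHom ℚ))⁄(AlgebraicClosure ℚ)).Point p) = p ^ 2)
    (hker : GaloisFactorsThroughFiniteLevel
      (WeierstrassCurve.Affine.Point.galoisRepModuleEnd (K := AlgebraicClosure ℚ) ℚ
        (W.map (Int.castRingHom ℚ)) p))
    (_hirr : W.ModRepIsIrreducible p) (M₀ : ℕ) (_hM₀ : M₀ ≠ 0) (_hpM₀ : ¬ p ^ 2 ∣ M₀)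
    (_hcube : ∀ q : ℕ, q.Prime → q ≠ p → ¬ q ^ 3 ∣ M₀)
    (_hres : W.IsResiduallyModularOfLevel p M₀),
    ∃ N : ℕ, N ∣ M₀ ∧ Squarefree N ∧ W.IsResiduallyModularOfLevel p N ∧
      (∀ q : ℕ, q.Prime → q ≠ p → q ∣ N →
        ¬ ((W.map (Int.castRingHom ℚ)).residualGaloisRepOf p hcard₁ hker).IsUnramifiedAt q) ∧
      (p ∣ N → ¬ (W.map (Int.castRingHom ℚ)).IsPeuRamifieeAt p p)

/-- Bookkeeping: SQUARE removal, S38 and S39 give LL. -/
theorem llec_of (hSQ : Stmt_SQ) (h38 : Stmt_S38) (h39 : Stmt_S39) : Stmt_LLec := by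
  classical
  intro p hpF hp2 W hΔ hW hcard₁ hker hirr
  have hp : p.Prime := hpF.out
  -- strong induction on the level
  suffices H : ∀ n : ℕ, ∀ M : ℕ, M ≤ n → M ≠ 0 → ¬ p ^ 2 ∣ M →
      (∀ q : ℕ, q.Prime → q ≠ p → ¬ q ^ 3 ∣ M) → W.IsResiduallyModularOfLevel p M →
      ∃ N : ℕ, N ∣ M ∧ Squarefree N ∧ W.IsResiduallyModularOfLevel p N ∧
        (∀ q : ℕ, q.Prime → q ≠ p → q ∣ N →
          ¬ ((W.map (Int.castRingHom ℚ)).residualGaloisRepOf p hcard₁ hker).IsUnramifiedAt q) ∧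
        (p ∣ N → ¬ (W.map (Int.castRingHom ℚ)).IsPeuRamifieeAt p p) by
    intro M₀ hM₀ hpM₀ hcube hres
    exact H M₀ M₀ le_rfl hM₀ hpM₀ hcube hres
  intro n
  induction n with
  | zero =>
    intro M hM hM0
    exact absurd (Nat.le_zero.mp hM) hM0
  | succ n ih =>
    intro M hMn hM0 hpM hcube hres
    -- a helper: passing to a proper divisor `M / q`
    have step : ∀ q : ℕ, q.Prime → q ∣ M → W.IsResiduallyModularOfLevel p (M / q) →
        ∃ N : ℕ, N ∣ M ∧ Squarefree N ∧ W.IsResiduallyModularOfLevel p N ∧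
          (∀ q : ℕ, q.Prime → q ≠ p → q ∣ N →
            ¬ ((W.map (Int.castRingHom ℚ)).residualGaloisRepOf p hcard₁ hker).IsUnramifiedAt q) ∧
          (p ∣ N → ¬ (W.map (Int.castRingHom ℚ)).IsPeuRamifieeAt p p) := by
      intro q hq hqM hres'
      have hdvd : M / q ∣ M := Nat.div_dvd_of_dvd hqM
      have hlt : M / q < M := Nat.div_lt_self (Nat.pos_of_ne_zero hM0) hq.one_lt
      have hne : M / q ≠ 0 := by
        intro h0
        have hqle : q ≤ M := Nat.le_of_dvd (Nat.pos_of_ne_zero hM0) hqM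
        have := (Nat.div_eq_zero_iff).mp h0
        rcases this with h | h
        · exact hq.ne_zero h
        · omega
      obtain ⟨N, hNM, hsq, hresN, hram, hpN⟩ := ih (M / q) (by omega) hne
        (fun h => hpM (h.trans hdvd))
        (fun r hr hrp h => hcube r hr hrp (h.trans hdvd)) hres'
      exact ⟨N, hNM.trans hdvd, hsq, hresN, hram, hpN⟩
    by_cases hsqr : ∃ q : ℕ, q.Prime ∧ q ≠ p ∧ q ^ 2 ∣ M
    · obtain ⟨q, hq, hqp, hq2⟩ := hsqr
      exact step q hq ((dvd_pow_self q two_ne_zero).trans hq2)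
        (hSQ p hp2 W hΔ hW hirr M q hq hqp hq2 (hcube q hq hqp) hres)
    · push Not at hsqr
      have hMsq : Squarefree M := by
        rw [Nat.squarefree_iff_prime_squarefree]
        intro r hr hrr
        by_cases hrp : r = p
        · subst hrp
          exact hpM (by rwa [pow_two])
        · exact hsqr r hr hrp (by rwa [pow_two])
      by_cases hunr : ∃ q : ℕ, q.Prime ∧ q ≠ p ∧ q ∣ M ∧
          ((W.map (Int.castRingHom ℚ)).residualGaloisRepOf p hcard₁ hker).IsUnramifiedAt q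
      · obtain ⟨q, hq, hqp, hqM, hu⟩ := hunr
        have hq2 : ¬ q ^ 2 ∣ M := fun h => hsqr q hq hqp h
        exact step q hq hqM (h38 p hp2 W hΔ hW hcard₁ hker hirr M q hq hqp hqM hq2 hMsq hu hres)
      · push Not at hunr
        by_cases hpp : p ∣ M ∧ (W.map (Int.castRingHom ℚ)).IsPeuRamifieeAt p p
        · obtain ⟨hpdvd, hfin⟩ := hpp
          exact step p hp hpdvd
            (h39 W hΔ hp hp2 (hW p hp) hirr hfin (Nat.pos_of_ne_zero hM0) hpdvd hpM hres)
        · refine ⟨M, dvd_rfl, hMsq, hres, fun q hq hqp hqM => hunr q hq hqp hqM, fun hpdvd hfin =>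
            hpp ⟨hpdvd, hfin⟩⟩

end Fermat.Agent.S59.LL
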