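import Fermat.Agent.S59.LL.Defs

/-!
# S59, package LL: the semistable form of the input S39 (helper40)

`llec_of` (`S59/LL/Defs.lean`) takes the frozen type of S39.  In the induction the statement S39 is
only used for a SEMISTABLE curve `W`, at a SQUAREFREE level `M` all of whose primes `q ≠ p` are
ramified for the residual representation.  `Stmt_S39ss` is S39 with these extra hypotheses (this is
what `BAD_3` of helper93 can prove at `p = 3`: for a semistable curve the image of the residual
representation is not dihedral, see `NOTES/plan/L_S39_BAD3.md` and `NOTES/plan/lead_BAD3_test.md`).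

* `s39ss_of : Stmt_S39 → Stmt_S39ss`;
* `llec_of_ss : Stmt_SQ → Stmt_S38 → Stmt_S39ss → Stmt_LLec`.
-/

set_option autoImplicit false
set_option linter.unusedVariables false

noncomputable section

open WeierstrassCurve WeierstrassCurve.Affine WeierstrassCurve.Affine.Point

namespace Fermat.Agent.S59.LL.H40

open Fermat.Agent.S59.LL

/-- **S39 for a semistable curve at a minimal squarefree level**: `W` semistable, `E[p]`
irreducible and peu ramifiée at `p`, `M` squarefree, `p ∣ M`, every prime `q ≠ p` of `M` ramified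
for the residual representation, `W` residually modular of level `M`: then `W` is residually
modular of level `M / p`. -/
def Stmt_S39ss : Prop :=
  ∀ (p : ℕ) [Fact p.Prime] (_hp2 : p ≠ 2) (W : WeierstrassCurve ℤ) (_hΔ : W.Δ ≠ 0)
    (_hW : W.IsSemistableModel)
    (hcard₁ : Nat.card (Submodule.torsionBy ℤ
      ((W.map (Int.castRingHom ℚ))⁄(AlgebraicClosure ℚ)).Point p) = p ^ 2)
    (hker : GaloisFactorsThroughFiniteLevel
      (WeierstrassCurve.Affine.Point.galoisRepModuleEnd (K := AlgebraicClosure ℚ) ℚ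
        (W.map (Int.castRingHom ℚ)) p))
    (_hirr : W.ModRepIsIrreducible p)
    (_hfin : (W.map (Int.castRingHom ℚ)).IsPeuRamifieeAt p p)
    (M : ℕ) (_hM : 0 < M) (_hsq : Squarefree M) (_hpM : p ∣ M)
    (_hram : ∀ q : ℕ, q.Prime → q ≠ p → q ∣ M →
      ¬ ((W.map (Int.castRingHom ℚ)).residualGaloisRepOf p hcard₁ hker).IsUnramifiedAt q)
    (_hmod : W.IsResiduallyModularOfLevel p M),
    W.IsResiduallyModularOfLevel p (M / p)

/-- The frozen S39 gives its semistable form. -/
theorem s39ss_of (h39 : Stmt_S39) : Stmt_S39ss := by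
  intro p hpF hp2 W hΔ hW hcard₁ hker hirr hfin M hM hsq hpM hram hmod
  have hp : p.Prime := hpF.out
  have hp2M : ¬ p ^ 2 ∣ M := by
    intro h
    have h1 : p * p ∣ M := by rwa [pow_two] at h
    exact hp.not_isUnit (hsq p h1)
  exact h39 W hΔ hp hp2 (hW p hp) hirr hfin hM hpM hp2M hmod

/-- Bookkeeping: SQUARE removal, S38 and the SEMISTABLE form of S39 give LL. -/
theorem llec_of_ss (hSQ : Stmt_SQ) (h38 : Stmt_S38) (h39 : Stmt_S39ss) : Stmt_LLec := by
  classical
  intro p hpF hp2 W hΔ hW hcard₁ hker hirr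
  have hp : p.Prime := hpF.out
  -- strong induction on the level
  suffices H : ∀ n : ℕ, ∀ M : ℕ, M ≤ n → M ≠ 0 → ¬ p ^ 2 ∣ M →
      (∀ q : ℕ, q.Prime → q ≠ p → ¬ q ^ 3 ∣ M) → W.IsResiduallyModularOfLevel p M →
      ∃ N : ℕ, N ∣ M ∧ Squarefree N ∧ W.IsResiduallyModularOfLevel p N ∧
        (∀ q : ℕ, q.Prime → q ≠ p → q ∣ N →
          ¬ ((W.map (Int.castRingHom ℚ)).residualGaloisRepOf p hcard₁ hker).IsUnramifiedAt q) ∧
        (p ∣ N → ¬ (W.map (Int.castRingHom ℚ)).IsPeuRamifieeAt p p) by
    intro M₀ hM₀ hpM₀ hcube hres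
    exact H M₀ M₀ le_rfl hM₀ hpM₀ hcube hres
  intro n
  induction n with
  | zero =>
    intro M hM hM0
    exact absurd (Nat.le_zero.mp hM) hM0
  | succ n ih =>
    intro M hMn hM0 hpM hcube hres
    -- a helper: passing to a proper divisor `M / q`
    have step : ∀ q : ℕ, q.Prime → q ∣ M → W.IsResiduallyModularOfLevel p (M / q) →
        ∃ N : ℕ, N ∣ M ∧ Squarefree N ∧ W.IsResiduallyModularOfLevel p N ∧
          (∀ q : ℕ, q.Prime → q ≠ p → q ∣ N →
            ¬ ((W.map (Int.castRingHom ℚ)).residualGaloisRepOf p hcard₁ hker).IsUnramifiedAt q) ∧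
          (p ∣ N → ¬ (W.map (Int.castRingHom ℚ)).IsPeuRamifieeAt p p) := by
      intro q hq hqM hres'
      have hdvd : M / q ∣ M := Nat.div_dvd_of_dvd hqM
      have hlt : M / q < M := Nat.div_lt_self (Nat.pos_of_ne_zero hM0) hq.one_lt
      have hne : M / q ≠ 0 := by
        intro h0
        have hqle : q ≤ M := Nat.le_of_dvd (Nat.pos_of_ne_zero hM0) hqM
        have := (Nat.div_eq_zero_iff).mp h0
        rcases this with h | h
        · exact hq.ne_zero h
        · omega
      obtain ⟨N, hNM, hsq, hresN, hram, hpN⟩ := ih (M / q) (by omega) hne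
        (fun h => hpM (h.trans hdvd))
        (fun r hr hrp h => hcube r hr hrp (h.trans hdvd)) hres'
      exact ⟨N, hNM.trans hdvd, hsq, hresN, hram, hpN⟩
    by_cases hsqr : ∃ q : ℕ, q.Prime ∧ q ≠ p ∧ q ^ 2 ∣ M
    · obtain ⟨q, hq, hqp, hq2⟩ := hsqr
      exact step q hq ((dvd_pow_self q two_ne_zero).trans hq2)
        (hSQ p hp2 W hΔ hW hirr M q hq hqp hq2 (hcube q hq hqp) hres)
    · push Not at hsqr
      have hMsq : Squarefree M := by
        rw [Nat.squarefree_iff_prime_squarefree]
        intro r hr hrr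
        by_cases hrp : r = p
        · subst hrp
          exact hpM (by rwa [pow_two])
        · exact hsqr r hr hrp (by rwa [pow_two])
      by_cases hunr : ∃ q : ℕ, q.Prime ∧ q ≠ p ∧ q ∣ M ∧
          ((W.map (Int.castRingHom ℚ)).residualGaloisRepOf p hcard₁ hker).IsUnramifiedAt q
      · obtain ⟨q, hq, hqp, hqM, hu⟩ := hunr
        have hq2 : ¬ q ^ 2 ∣ M := fun h => hsqr q hq hqp h
        exact step q hq hqM (h38 p hp2 W hΔ hW hcard₁ hker hirr M q hq hqp hqM hq2 hMsq hu hres)
      · push Not at hunr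
        by_cases hpp : p ∣ M ∧ (W.map (Int.castRingHom ℚ)).IsPeuRamifieeAt p p
        · obtain ⟨hpdvd, hfin⟩ := hpp
          exact step p hp hpdvd
            (h39 p hp2 W hΔ hW hcard₁ hker hirr hfin M (Nat.pos_of_ne_zero hM0) hMsq hpdvd
              (fun q hq hqp hqM => hunr q hq hqp hqM) hres)
        · refine ⟨M, dvd_rfl, hMsq, hres, fun q hq hqp hqM => hunr q hq hqp hqM, fun hpdvd hfin =>
            hpp ⟨hpdvd, hfin⟩⟩

end Fermat.Agent.S59.LL.H40
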