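import Fermat.Agent.S59.LL.SQWire
import Fermat.Agent.S52.H5_Unip
import Fermat.Agent.L.H52_RecUncond

/-!
# S59, package LL, leaf SQ-FIX (helper40)

For a semistable integral Weierstrass curve and primes `q ≠ p`, the inertia group at a place over
`q` fixes a nonzero vector of `E[p]`: the image of inertia in the permutation group of the finite
set `E[p]` is a `p`-group (every element is unipotent, `S52.H5.unip_torsionBy`), and a `p`-group
acting on a set of cardinality `p²` with one fixed point has another one.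
-/

set_option autoImplicit false

open WeierstrassCurve WeierstrassCurve.Affine WeierstrassCurve.Affine.Point
open scoped WeierstrassCurve.Affine

namespace Fermat.Agent.S59.LL.H40

open Fermat.Agent.S44 Fermat.Agent.S59.LL

/-- Powers of a unipotent additive automorphism. -/
theorem pow_smul_of_unip {G V : Type*} [Group G] [AddCommGroup V] [DistribMulAction G V]
    (σ : G) (v : V) (h : σ • (σ • v - v) = σ • v - v) (n : ℕ) :
    σ ^ n • v = v + n • (σ • v - v) := by
  induction n with
  | zero => simp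
  | succ n ih =>
    rw [pow_succ', mul_smul, ih, smul_add, smul_comm, h, succ_nsmul]
    abel

/-- Elements of the `p`-torsion are killed by `p`. -/
theorem nsmul_torsionBy_eq_zero {M : Type*} [AddCommGroup M] (p : ℕ)
    (x : Submodule.torsionBy ℤ M (p : ℤ)) : p • x = 0 := by
  have := x.2
  rw [Submodule.mem_torsionBy_iff] at this
  apply Subtype.ext
  rw [AddSubmonoidClass.coe_nsmul, ← natCast_zsmul]
  exact this

theorem stmt_SQFix : Stmt_SQFix := by
  classical
  intro p hp W hΔ hW q hq hqp A hA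
  have : Fact p.Prime := ⟨hp⟩
  have hfr : Module.finrank (ZMod p) (Tors (W.map (Int.castRingHom ℚ)) p) = 2 :=
    Fermat.Agent.L.H52.finrank_tors_main hΔ
  have : Module.Finite (ZMod p) (Tors (W.map (Int.castRingHom ℚ)) p) :=
    Module.finite_of_finrank_pos (by omega)
  have : Finite (Tors (W.map (Int.castRingHom ℚ)) p) := Module.finite_of_finite (ZMod p)
  have hcard : Nat.card (Tors (W.map (Int.castRingHom ℚ)) p) = p ^ 2 := by
    rw [Module.natCard_eq_pow_finrank (K := ZMod p), hfr, Nat.card_zmod]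
  have hqp' : ¬ q ∣ p := fun h => hqp ((Nat.prime_dvd_prime_iff_eq hq hp).1 h)
  -- unipotence
  have hun : ∀ σ : GQ, σ ∈ A.inertiaSubgroupIn ℚ →
      ∀ v : Tors (W.map (Int.castRingHom ℚ)) p, σ • (σ • v - v) = σ • v - v := fun σ hσ v =>
    Fermat.Agent.S52.H5.unip_torsionBy W q p A hΔ (hW q hq) hq hqp' hA σ hσ v
  -- `σ ^ p` acts trivially
  have hpow : ∀ σ : GQ, σ ∈ A.inertiaSubgroupIn ℚ →
      ∀ v : Tors (W.map (Int.castRingHom ℚ)) p, σ ^ p • v = v := by
    intro σ hσ v
    rw [pow_smul_of_unip σ v (hun σ hσ v) p]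
    rw [nsmul_torsionBy_eq_zero p (σ • v - v), add_zero]
  -- the image of inertia in the permutation group
  let φ : ↥(A.inertiaSubgroupIn ℚ) →* Equiv.Perm (Tors (W.map (Int.castRingHom ℚ)) p) :=
    MulAction.toPermHom _ _
  have hP : IsPGroup p φ.range := by
    rintro ⟨g, σ, rfl⟩
    refine ⟨1, ?_⟩
    apply Subtype.ext
    rw [pow_one, SubgroupClass.coe_pow, Subgroup.coe_one, ← map_pow]
    apply Equiv.ext
    intro v
    show (σ ^ p) • v = v
    exact hpow σ.1 σ.2 v
  have h0fix : (0 : Tors (W.map (Int.castRingHom ℚ)) p) ∈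
      MulAction.fixedPoints φ.range (Tors (W.map (Int.castRingHom ℚ)) p) := by
    rintro ⟨g, σ, rfl⟩
    show (σ : GQ) • (0 : Tors (W.map (Int.castRingHom ℚ)) p) = 0
    exact smul_zero _
  obtain ⟨b, hb, hb0⟩ := hP.exists_fixed_point_of_prime_dvd_card_of_fixed_point
    (Tors (W.map (Int.castRingHom ℚ)) p) (by rw [hcard]; exact dvd_pow_self p two_ne_zero) h0fix
  refine ⟨b, fun h => hb0 h.symm, fun σ hσ => ?_⟩
  exact hb ⟨φ ⟨σ, hσ⟩, ⟨σ, hσ⟩, rfl⟩

end Fermat.Agent.S59.LL.H40
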