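import Fermat.Agent.S59.LL.SQ.H40_Step0
import Fermat.Agent.S59.LL.H40_LLss
import Fermat.Agent.S59.LL.H40_SQFix
import Fermat.Agent.S59.H61_Stab

/-!
# S59, package LL (helper40): level optimisation with AUXILIARY LEVEL RAISING (`LLec0`)

The conclusion `N ∣ M₀` of `LL.Stmt_LLec` is never used (`S59/Asm/H71_LiftWire.lean`).  Without it
the level may be RAISED by old forms before the squares are removed, and the geometric package SQ
is only needed at the TAME levels of NU-B (`4 ∣ M`, `q` odd) and at `q = 2`: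

* `LLec0At p`      : `Stmt_LLec` at the prime `p`, without `N ∣ M₀`;
* `SqNewTameAt p`  : "BAD at `q²`" for the `q`-new points of `J₀(M q)[p]`, `q` odd, `q ∥ M`, `4 ∣ M`;
* `SqNewTwoAt p`   : the same at `q = 2`, `2 ∥ M` (for `p ≥ 5` a corollary of `Stmt_TorsNU`, for
                     `p = 3` the package SQ23: the `S₃`-cover `X₀(4M') → X₀(M')`);
* `sqPart_of_new_at`, `sq_at` : the pointwise forms of `SQ.H40.sqQ_of_new` and of `LL.sq_of`;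
* `resMod_mul_of_dvd`, `resMod_mul_of_not_dvd` : old forms (`q ∣ M`: the same `q`-expansion;
  `q ∤ M`: `S59.H61.stmt_Stab`);
* `llec0_at : SqNewTameAt p → SqNewTwoAt p → Stmt_S38 → Stmt_S39ss → LLec0At p`.

Induction: (i) raise the level to `4 ∥ M`; (ii) remove the odd squares `q² ∥ M`, `q ≠ p`
(`4 ∣ M` is kept); (iii) remove one `2` (the level is now squarefree); (iv) `S38` and `S39ss` on
squarefree levels.  Plan: `NOTES/plan/S59_LL.md` §8, tested by lead (`lead_SQ23_test.md`).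
-/

set_option autoImplicit false
set_option linter.unusedVariables false
set_option linter.style.haveILetI false

noncomputable section

open WeierstrassCurve WeierstrassCurve.Affine WeierstrassCurve.Affine.Point
open scoped WeierstrassCurve.Affine

namespace Fermat.Agent.S59.LL.H40

open Fermat.Agent.S59.LL Fermat.Agent.S44 Fermat.Agent.S59.LL.SQ.H40 ModularCurve
  Fermat.Agent.S35.H89

/-! ## The statements -/

/-- **LL at `p`, without `N ∣ M₀`.** -/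
def LLec0At (p : ℕ) : Prop :=
  ∀ [Fact p.Prime] (_hp2 : p ≠ 2) (W : WeierstrassCurve ℤ) (_hΔ : W.Δ ≠ 0)
    (_hW : W.IsSemistableModel)
    (hcard₁ : Nat.card (Submodule.torsionBy ℤ
      ((W.map (Int.castRingHom ℚ))⁄(AlgebraicClosure ℚ)).Point p) = p ^ 2)
    (hker : GaloisFactorsThroughFiniteLevel
      (WeierstrassCurve.Affine.Point.galoisRepModuleEnd (K := AlgebraicClosure ℚ) ℚ
        (W.map (Int.castRingHom ℚ)) p))
    (_hirr : W.ModRepIsIrreducible p) (M₀ : ℕ) (_hM₀ : M₀ ≠ 0) (_hpM₀ : ¬ p ^ 2 ∣ M₀)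
    (_hcube : ∀ q : ℕ, q.Prime → q ≠ p → ¬ q ^ 3 ∣ M₀)
    (_hres : W.IsResiduallyModularOfLevel p M₀),
    ∃ N : ℕ, Squarefree N ∧ W.IsResiduallyModularOfLevel p N ∧
      (∀ q : ℕ, q.Prime → q ≠ p → q ∣ N →
        ¬ ((W.map (Int.castRingHom ℚ)).residualGaloisRepOf p hcard₁ hker).IsUnramifiedAt q) ∧
      (p ∣ N → ¬ (W.map (Int.castRingHom ℚ)).IsPeuRamifieeAt p p)

/-- **SQ at the tame levels**: `q` odd, `q ∥ M`, `4 ∣ M` (level `M q`). -/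
def SqNewTameAt (p : ℕ) : Prop :=
  ∀ (M q : ℕ) [NeZero M] [NeZero q], q.Prime → q ≠ p → q ≠ 2 → q ∣ M → ¬ q ^ 2 ∣ M → 4 ∣ M →
    ∀ A : ValuationSubring (AlgebraicClosure ℚ), A.LiesOverPrime q → HasSqNewPartAt p M q A

/-- **SQ at `q = 2`**: `2 ∥ M` (level `2 M`). -/
def SqNewTwoAt (p : ℕ) : Prop :=
  ∀ (M : ℕ) [NeZero M], 2 ∣ M → ¬ 4 ∣ M →
    ∀ A : ValuationSubring (AlgebraicClosure ℚ), A.LiesOverPrime 2 → HasSqNewPartAt p M 2 A

/-! ## Pointwise forms of `sqQ_of_new` and `sq_of` -/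

/-- **STEP 0 at one level** (`SQ.H40.sqQ_of_new`, pointwise). -/
theorem sqPart_of_new_at (p : ℕ) (hp : p.Prime) (M q : ℕ) [NeZero M] [NeZero q] [NeZero (M * q)]
    (hq : q.Prime) (A : ValuationSubring (AlgebraicClosure ℚ))
    (h : HasSqNewPartAt p M q A) : HasSqPartAt (jzModule (M * q) p) (M * q) q A := by
  have hdiv : M * q / q = M := Nat.mul_div_cancel M hq.pos
  intro S t x hx0 hI hT hNE
  have hx0' : jzModule.pt (M * q) p x ≠ 0 := fun h0 =>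
    hx0 (jzModule.pt_injective (M * q) p (by rw [h0]; rfl))
  have hxp : (p : ℤ) • jzModule.pt (M * q) p x = 0 := jzModule.pt_torsion (M * q) p x
  have hxT : ∀ ℓ : Nat.Primes, (ℓ : ℕ) ∉ S → ¬ (ℓ : ℕ) ∣ M * q → (ℓ : ℕ) ≠ p →
      heckeOperatorBar (M * q) ℓ (jzModule.pt (M * q) p x) = t ℓ • jzModule.pt (M * q) p x := by
    intro ℓ hℓS hℓN hℓp
    have h1 := jzModule.pt_T (M * q) p ℓ.2 hℓN x
    have h2 : heckeOperatorBar (M * q) ℓ (jzModule.pt (M * q) p x)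
        = jzModule.pt (M * q) p ((jzModule (M * q) p).T ℓ x) := h1.symm
    rw [h2, hT ℓ ℓ.2 hℓS hℓN hℓp, pt_intCast_smul]
  have hconcl : ∃ (g : CuspForm (CongruenceSubgroup.Gamma0 M) 2)
      (𝔪 : Ideal (integralClosure ℤ ℂ)),
      g.IsNormalizedEigenform ∧ 𝔪.IsMaximal ∧ (p : integralClosure ℤ ℂ) ∈ 𝔪 ∧
      ∀ ℓ : ℕ, ℓ.Prime → ℓ ∉ S → ¬ ℓ ∣ M * q → ℓ ≠ p →
        ∃ a : integralClosure ℤ ℂ, (a : ℂ) = ModularFormClass.qCoeff g ℓ ∧
          a - ((t ℓ : ℤ) : integralClosure ℤ ℂ) ∈ 𝔪 := by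
    by_cases hnew : IsQNew M q (jzModule.pt (M * q) p x)
    · refine h S t (jzModule.pt (M * q) p x) hx0' hxp hnew (fun σ hσ => ?_) hxT hNE
      rw [← jzModule.pt_gal, hI σ hσ]
    · exact step0 p hp M q hq S t (jzModule.pt (M * q) p x) hxp hxT hnew
  rw [hdiv]
  exact hconcl

/-- **SQUARE removal at one level** (`LL.sq_of`, pointwise; `Stmt_SQFix` is `stmt_SQFix`). -/
theorem sq_at (p : ℕ) [hpF : Fact p.Prime] (hp2 : p ≠ 2) (W : WeierstrassCurve ℤ) (hΔ : W.Δ ≠ 0)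
    (hW : W.IsSemistableModel) (hirr : W.ModRepIsIrreducible p) (M q : ℕ) (hq : q.Prime)
    (hqp : q ≠ p) (hq2 : q ^ 2 ∣ M) (hM0 : M ≠ 0)
    (h1 : ∀ [NeZero M] (A : ValuationSubring (AlgebraicClosure ℚ)), A.LiesOverPrime q →
      HasSqPartAt (jzModule M p) M q A)
    (hres : W.IsResiduallyModularOfLevel p M) : W.IsResiduallyModularOfLevel p (M / q) := by
  have hp : p.Prime := hpF.out
  obtain ⟨f, 𝔪, hf, h𝔪, hp𝔪, hcong⟩ := hres
  have hMpos : 0 < M := Nat.pos_of_ne_zero hM0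
  haveI : NeZero M := ⟨hM0⟩
  set E : WeierstrassCurve ℚ := W.map (Int.castRingHom ℚ) with hE
  have hWE : W.IsIntegralModelOf E := ⟨1, one_smul _ _⟩
  have : E.IsElliptic := by
    refine ⟨isUnit_iff_ne_zero.mpr ?_⟩
    rw [hE, WeierstrassCurve.map_Δ]
    simpa using hΔ
  obtain ⟨A, hAq⟩ := stmt_PlaceOver q hq
  obtain ⟨hcont, hES, hsupp⟩ := stmt_TateModP p hp hp2 M
  set S : Finset ℕ := W.Δ.natAbs.primeFactors with hS
  have hnat : W.Δ.natAbs ≠ 0 := Int.natAbs_ne_zero.mpr hΔ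
  have hgood : ∀ ℓ : ℕ, ℓ.Prime → ℓ ∉ S → W.IsGoodPrimeFor ℓ := by
    intro ℓ hℓ hℓS hdvd
    apply hℓS
    rw [hS, Nat.mem_primeFactors]
    exact ⟨hℓ, Int.natCast_dvd.mp hdvd, hnat⟩
  have hbad : ∀ ℓ : ℕ, W.IsGoodPrimeFor ℓ → ℓ ∉ S := by
    intro ℓ hg hmem
    rw [hS, Nat.mem_primeFactors] at hmem
    exact hg (Int.natCast_dvd.mpr hmem.2.1)
  obtain ⟨x, hx0, hx⟩ := hsupp f 𝔪 S (fun ℓ => W.apOfModel ℓ) hf h𝔪 hp𝔪
    (fun ℓ hℓ hℓS hℓN hℓp => hcong ℓ hℓ (hgood ℓ hℓ hℓS) hℓN hℓp)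
  obtain ⟨ι, hinj, hequiv, hT⟩ := Fermat.Agent.L.H52.recovery p hp hp2 M hMpos
    (jzModule M p) hcont hES E W hWE hirr S hgood x hx0 hx
  obtain ⟨v, hv0, hvfix⟩ := stmt_SQFix p hp W hΔ hW q hq hqp A hAq
  have hNE : ∃ ℓ : ℕ, ℓ.Prime ∧ ℓ ∉ S ∧ ¬ ℓ ∣ M ∧ ℓ ≠ p ∧
      ((W.apOfModel ℓ : ℤ) : ZMod p) ≠ 1 + (ℓ : ZMod p) := by
    have h := Fermat.Agent.S41.H19.stmt_I3 E W hWE p M hp hMpos hirr
    by_contra hcon
    apply h
    intro ℓ hℓ hℓW hℓN hℓp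
    by_contra hne
    exact hcon ⟨ℓ, hℓ, hbad ℓ hℓW, hℓN, hℓp, hne⟩
  obtain ⟨g, 𝔪', hg, h𝔪', hp𝔪', hgc⟩ := h1 A hAq S
    (fun ℓ => W.apOfModel ℓ) (ι v)
    (fun h => hv0 (hinj (by rw [h, _root_.map_zero])))
    (fun σ hσ => by rw [← hequiv, hvfix σ hσ])
    (fun ℓ hℓ hℓS hℓN hℓp => hT ℓ hℓ hℓS hℓN hℓp v) hNE
  refine ⟨g, 𝔪', hg, h𝔪', hp𝔪', fun ℓ hℓ hℓgood hℓMq hℓp => ?_⟩
  have hqMq : q ∣ M / q := by
    obtain ⟨k, hk⟩ := hq2
    refine ⟨k, ?_⟩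
    rw [hk, pow_two, mul_assoc, Nat.mul_div_cancel_left _ hq.pos]
  have hℓM : ¬ ℓ ∣ M := by
    intro hd
    have hqM : q ∣ M := (dvd_pow_self q two_ne_zero).trans hq2
    rw [← Nat.div_mul_cancel hqM] at hd
    rcases (Nat.Prime.dvd_mul hℓ).1 hd with h | h
    · exact hℓMq h
    · have : ℓ = q := (Nat.prime_dvd_prime_iff_eq hℓ hq).1 h
      exact hℓMq (this ▸ hqMq)
  exact hgc ℓ hℓ (hbad ℓ hℓgood) hℓM hℓp

/-- **SQUARE removal at one level from the `q`-new part.** -/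
theorem sq_at_of_new (p : ℕ) [hpF : Fact p.Prime] (hp2 : p ≠ 2) (W : WeierstrassCurve ℤ)
    (hΔ : W.Δ ≠ 0) (hW : W.IsSemistableModel) (hirr : W.ModRepIsIrreducible p) (M q : ℕ)
    (hq : q.Prime) (hqp : q ≠ p) (hM0 : M ≠ 0)
    (h1 : ∀ [NeZero M] [NeZero q] (A : ValuationSubring (AlgebraicClosure ℚ)),
      A.LiesOverPrime q → HasSqNewPartAt p M q A)
    (hqM : q ∣ M)
    (hres : W.IsResiduallyModularOfLevel p (M * q)) : W.IsResiduallyModularOfLevel p M := by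
  haveI : NeZero M := ⟨hM0⟩
  haveI : NeZero q := ⟨hq.ne_zero⟩
  have hMq0 : M * q ≠ 0 := mul_ne_zero hM0 hq.ne_zero
  haveI : NeZero (M * q) := ⟨hMq0⟩
  have hq2 : q ^ 2 ∣ M * q := by
    rw [pow_two]
    exact Nat.mul_dvd_mul hqM dvd_rfl
  have h := sq_at p hp2 W hΔ hW hirr (M * q) q hq hqp hq2 hMq0
    (fun A hA => sqPart_of_new_at p hpF.out M q hq A (h1 A hA)) hres
  rwa [Nat.mul_div_cancel M hq.pos] at h

/-! ## Old forms -/

/-- **Old forms, `q ∣ M`**: the same `q`-expansion is a normalised eigenform of level `M q`. -/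
theorem resMod_mul_of_dvd (W : WeierstrassCurve ℤ) (p M q : ℕ) (hq : q.Prime) (hqM : q ∣ M)
    (h : W.IsResiduallyModularOfLevel p M) : W.IsResiduallyModularOfLevel p (M * q) := by
  obtain ⟨f, 𝔪, hf, h𝔪, hp𝔪, hc⟩ := h
  refine ⟨Fermat.Agent.S59.H61.restrictCusp (Fermat.Agent.S59.H61.Gamma0_mul_le_GL M q) f, 𝔪,
    ⟨?_, ?_, ?_, ?_⟩, h𝔪, hp𝔪, fun ℓ hℓ hg hℓM hℓp => ?_⟩
  · exact hf.qCoeff_one
  · exact hf.qCoeff_mul_of_coprime
  · intro r k hr hrM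
    exact hf.qCoeff_prime_pow_of_not_dvd r k hr (fun hd => hrM (hd.mul_right q))
  · intro r k hr hrM
    refine hf.qCoeff_prime_pow_of_dvd r k hr ?_
    rcases (Nat.Prime.dvd_mul hr).1 hrM with hd | hd
    · exact hd
    · exact ((Nat.prime_dvd_prime_iff_eq hr hq).1 hd) ▸ hqM
  · exact hc ℓ hℓ hg (fun hd => hℓM (hd.mul_right q)) hℓp

/-- **Old forms, `q ∤ M`**: stabilisation (`S59.H61.stmt_Stab`). -/
theorem resMod_mul_of_not_dvd (W : WeierstrassCurve ℤ) (p M q : ℕ) (hq : q.Prime) (hqM : ¬ q ∣ M)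
    (h : W.IsResiduallyModularOfLevel p M) : W.IsResiduallyModularOfLevel p (M * q) := by
  obtain ⟨f, 𝔪, hf, h𝔪, hp𝔪, hc⟩ := h
  obtain ⟨g, hg, hgf⟩ := Fermat.Agent.S59.H61.stmt_Stab M q hq hqM f hf
  refine ⟨g, 𝔪, hg, h𝔪, hp𝔪, fun ℓ hℓ hgood hℓM hℓp => ?_⟩
  have hℓq : ℓ ≠ q := by
    rintro rfl
    exact hℓM (dvd_mul_left _ _)
  rw [hgf ℓ hℓ hℓq]
  exact hc ℓ hℓ hgood (fun hd => hℓM (hd.mul_right q)) hℓp

/-! ## The squarefree levels: `S38` and `S39ss` -/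

/-- **LL on the squarefree levels.** -/
theorem llec_sqfree (h38 : Stmt_S38) (h39 : Stmt_S39ss) (p : ℕ) [hpF : Fact p.Prime]
    (hp2 : p ≠ 2) (W : WeierstrassCurve ℤ) (hΔ : W.Δ ≠ 0) (hW : W.IsSemistableModel)
    (hcard₁ : Nat.card (Submodule.torsionBy ℤ
      ((W.map (Int.castRingHom ℚ))⁄(AlgebraicClosure ℚ)).Point p) = p ^ 2)
    (hker : GaloisFactorsThroughFiniteLevel
      (WeierstrassCurve.Affine.Point.galoisRepModuleEnd (K := AlgebraicClosure ℚ) ℚ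
        (W.map (Int.castRingHom ℚ)) p))
    (hirr : W.ModRepIsIrreducible p) :
    ∀ n : ℕ, ∀ M : ℕ, M ≤ n → Squarefree M → W.IsResiduallyModularOfLevel p M →
      ∃ N : ℕ, Squarefree N ∧ W.IsResiduallyModularOfLevel p N ∧
        (∀ q : ℕ, q.Prime → q ≠ p → q ∣ N →
          ¬ ((W.map (Int.castRingHom ℚ)).residualGaloisRepOf p hcard₁ hker).IsUnramifiedAt q) ∧
        (p ∣ N → ¬ (W.map (Int.castRingHom ℚ)).IsPeuRamifieeAt p p) := by
  classical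
  have hp : p.Prime := hpF.out
  intro n
  induction n with
  | zero =>
    intro M hM hsq
    have : M = 0 := Nat.le_zero.mp hM
    subst this
    exact absurd hsq not_squarefree_zero
  | succ n ih =>
    intro M hMn hMsq hres
    have hM0 : M ≠ 0 := fun h => not_squarefree_zero (h ▸ hMsq)
    have step : ∀ q : ℕ, q.Prime → q ∣ M → W.IsResiduallyModularOfLevel p (M / q) →
        ∃ N : ℕ, Squarefree N ∧ W.IsResiduallyModularOfLevel p N ∧
          (∀ q : ℕ, q.Prime → q ≠ p → q ∣ N →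
            ¬ ((W.map (Int.castRingHom ℚ)).residualGaloisRepOf p hcard₁ hker).IsUnramifiedAt q) ∧
          (p ∣ N → ¬ (W.map (Int.castRingHom ℚ)).IsPeuRamifieeAt p p) := by
      intro q hq hqM hres'
      have hdvd : M / q ∣ M := Nat.div_dvd_of_dvd hqM
      have hlt : M / q < M := Nat.div_lt_self (Nat.pos_of_ne_zero hM0) hq.one_lt
      exact ih (M / q) (by omega) (hMsq.squarefree_of_dvd hdvd) hres'
    have hnsq : ∀ q : ℕ, q.Prime → ¬ q ^ 2 ∣ M := by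
      intro q hq hd
      rw [pow_two] at hd
      exact hq.not_isUnit (hMsq q hd)
    by_cases hunr : ∃ q : ℕ, q.Prime ∧ q ≠ p ∧ q ∣ M ∧
        ((W.map (Int.castRingHom ℚ)).residualGaloisRepOf p hcard₁ hker).IsUnramifiedAt q
    · obtain ⟨q, hq, hqp, hqM, hu⟩ := hunr
      exact step q hq hqM
        (h38 p hp2 W hΔ hW hcard₁ hker hirr M q hq hqp hqM (hnsq q hq) hMsq hu hres)
    · push Not at hunr
      by_cases hpp : p ∣ M ∧ (W.map (Int.castRingHom ℚ)).IsPeuRamifieeAt p p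
      · obtain ⟨hpdvd, hfin⟩ := hpp
        exact step p hp hpdvd
          (h39 p hp2 W hΔ hW hcard₁ hker hirr hfin M (Nat.pos_of_ne_zero hM0) hMsq hpdvd
            (fun q hq hqp hqM => hunr q hq hqp hqM) hres)
      · exact ⟨M, hMsq, hres, fun q hq hqp hqM => hunr q hq hqp hqM, fun hpdvd hfin =>
          hpp ⟨hpdvd, hfin⟩⟩

/-! ## The odd squares at the levels divisible by `4` -/

/-- **Removal of the odd squares** (`4 ∣ M` is kept). -/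
theorem odd_squares (p : ℕ) [hpF : Fact p.Prime] (hp2 : p ≠ 2) (hT : SqNewTameAt p)
    (W : WeierstrassCurve ℤ) (hΔ : W.Δ ≠ 0) (hW : W.IsSemistableModel)
    (hirr : W.ModRepIsIrreducible p) :
    ∀ n : ℕ, ∀ M : ℕ, M ≤ n → M ≠ 0 → 4 ∣ M → ¬ 8 ∣ M → ¬ p ^ 2 ∣ M →
      (∀ q : ℕ, q.Prime → q ≠ p → ¬ q ^ 3 ∣ M) → W.IsResiduallyModularOfLevel p M →
      ∃ M₂ : ℕ, M₂ ≠ 0 ∧ 4 ∣ M₂ ∧ ¬ 8 ∣ M₂ ∧ ¬ p ^ 2 ∣ M₂ ∧
        (∀ q : ℕ, q.Prime → q ≠ 2 → ¬ q ^ 2 ∣ M₂) ∧ W.IsResiduallyModularOfLevel p M₂ := by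
  classical
  have hp : p.Prime := hpF.out
  intro n
  induction n with
  | zero =>
    intro M hM hM0
    exact absurd (Nat.le_zero.mp hM) hM0
  | succ n ih =>
    intro M hMn hM0 h4 h8 hpM hcube hres
    by_cases hsq : ∃ q : ℕ, q.Prime ∧ q ≠ 2 ∧ q ^ 2 ∣ M
    · obtain ⟨q, hq, hq2, hqsq⟩ := hsq
      have hqp : q ≠ p := by
        rintro rfl
        exact hpM hqsq
      have hqM : q ∣ M := (dvd_pow_self q two_ne_zero).trans hqsq
      obtain ⟨M', rfl⟩ : ∃ M', M = M' * q := ⟨M / q, (Nat.div_mul_cancel hqM).symm⟩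
      have hM'0 : M' ≠ 0 := by
        rintro rfl
        exact hM0 (zero_mul q)
      have hqM' : q ∣ M' := by
        rw [pow_two] at hqsq
        exact (Nat.mul_dvd_mul_iff_right hq.pos).1 hqsq
      have hq2M' : ¬ q ^ 2 ∣ M' := by
        intro hd
        apply hcube q hq hqp
        rw [pow_succ]
        exact Nat.mul_dvd_mul hd dvd_rfl
      have hcop : Nat.Coprime 4 q := by
        have h2q : Nat.Coprime 2 q :=
          (Nat.coprime_primes Nat.prime_two hq).2 (fun h => hq2 h.symm)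
        have : Nat.Coprime (2 ^ 2) q := Nat.Coprime.pow_left 2 h2q
        simpa using this
      have h4M' : 4 ∣ M' := hcop.dvd_of_dvd_mul_right h4
      have hres' : W.IsResiduallyModularOfLevel p M' :=
        sq_at_of_new p hp2 W hΔ hW hirr M' q hq hqp hM'0
          (fun A hA => hT M' q hq hqp hq2 hqM' hq2M' h4M' A hA) hqM' hres
      have hlt : M' < M' * q := by
        have := hq.one_lt
        have hpos : 0 < M' := Nat.pos_of_ne_zero hM'0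
        nlinarith
      exact ih M' (by omega) hM'0 h4M' (fun h => h8 (h.mul_right q)) (fun h => hpM (h.mul_right q))
        (fun r hr hrp h => hcube r hr hrp (h.mul_right q)) hres'
    · push Not at hsq
      exact ⟨M, hM0, h4, h8, hpM, fun q hq hq2 => hsq q hq hq2, hres⟩

/-! ## The induction -/

/-- **LL at `p` with auxiliary level raising**: the squares are removed at the levels divisible
by `4` (odd `q`) and at `q = 2`. -/
theorem llec0_at (p : ℕ) (hT : SqNewTameAt p) (h2 : SqNewTwoAt p) (h38 : Stmt_S38)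
    (h39 : Stmt_S39ss) : LLec0At p := by
  classical
  intro hpF hp2 W hΔ hW hcard₁ hker hirr M₀ hM₀ hpM₀ hcube hres
  have hp : p.Prime := hpF.out
  have h2p : (2 : ℕ) ≠ p := fun h => hp2 h.symm
  have hpodd : Nat.Coprime (p ^ 2) 2 := by
    have : Nat.Coprime p 2 := (Nat.coprime_primes hp Nat.prime_two).2 hp2
    exact Nat.Coprime.pow_left 2 this
  have h8M₀ : ¬ 8 ∣ M₀ := fun h => hcube 2 Nat.prime_two h2p (by norm_num; exact h)
  -- (i) raise the level to `4 ∥ M₁`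
  obtain ⟨M₁, hM₁0, h4, h8, hpM₁, hcube₁, hres₁⟩ : ∃ M₁ : ℕ, M₁ ≠ 0 ∧ 4 ∣ M₁ ∧ ¬ 8 ∣ M₁ ∧
      ¬ p ^ 2 ∣ M₁ ∧ (∀ q : ℕ, q.Prime → q ≠ p → ¬ q ^ 3 ∣ M₁) ∧
      W.IsResiduallyModularOfLevel p M₁ := by
    -- multiplication by `2` keeps the conditions away from `2`
    have key : ∀ M : ℕ, M ≠ 0 → ¬ 4 ∣ M → ¬ p ^ 2 ∣ M →
        (∀ q : ℕ, q.Prime → q ≠ p → q ≠ 2 → ¬ q ^ 3 ∣ M) →
        M * 2 ≠ 0 ∧ ¬ 8 ∣ M * 2 ∧ ¬ p ^ 2 ∣ M * 2 ∧
          (∀ q : ℕ, q.Prime → q ≠ p → q ≠ 2 → ¬ q ^ 3 ∣ M * 2) := by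
      intro M hM0 h4M hpM hc
      refine ⟨mul_ne_zero hM0 two_ne_zero, ?_, ?_, ?_⟩
      · intro h
        apply h4M
        have : (4 : ℕ) * 2 ∣ M * 2 := by simpa using h
        exact (Nat.mul_dvd_mul_iff_right (by norm_num)).1 this
      · intro h
        exact hpM (hpodd.dvd_of_dvd_mul_right h)
      · intro q hq hqp hq2 h
        have hc3 : Nat.Coprime (q ^ 3) 2 := by
          have : Nat.Coprime q 2 := (Nat.coprime_primes hq Nat.prime_two).2 hq2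
          exact Nat.Coprime.pow_left 3 this
        exact hc q hq hqp hq2 (hc3.dvd_of_dvd_mul_right h)
    have cubeOf : ∀ M : ℕ, ¬ 8 ∣ M → (∀ q : ℕ, q.Prime → q ≠ p → q ≠ 2 → ¬ q ^ 3 ∣ M) →
        ∀ q : ℕ, q.Prime → q ≠ p → ¬ q ^ 3 ∣ M := by
      intro M h8 hc q hq hqp
      by_cases hq2 : q = 2
      · subst hq2
        norm_num
        exact h8
      · exact hc q hq hqp hq2
    have hc₀ : ∀ q : ℕ, q.Prime → q ≠ p → q ≠ 2 → ¬ q ^ 3 ∣ M₀ := fun q hq hqp _ => hcube q hq hqp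
    by_cases h4M₀ : 4 ∣ M₀
    · exact ⟨M₀, hM₀, h4M₀, h8M₀, hpM₀, hcube, hres⟩
    · by_cases h2M₀ : 2 ∣ M₀
      · obtain ⟨k1, k2, k3, k4⟩ := key M₀ hM₀ h4M₀ hpM₀ hc₀
        refine ⟨M₀ * 2, k1, ?_, k2, k3, cubeOf _ k2 k4,
          resMod_mul_of_dvd W p M₀ 2 Nat.prime_two h2M₀ hres⟩
        obtain ⟨c, rfl⟩ := h2M₀
        exact ⟨c, by ring⟩
      · have h4' : ¬ 4 ∣ M₀ * 2 := by
          intro h
          apply h2M₀
          have : (2 : ℕ) * 2 ∣ M₀ * 2 := by simpa using h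
          exact (Nat.mul_dvd_mul_iff_right (by norm_num)).1 this
        obtain ⟨k1, k2, k3, k4⟩ := key M₀ hM₀ h4M₀ hpM₀ hc₀
        obtain ⟨l1, l2, l3, l4⟩ := key (M₀ * 2) k1 h4' k3 k4
        refine ⟨M₀ * 2 * 2, l1, ⟨M₀, by ring⟩, l2, l3, cubeOf _ l2 l4, ?_⟩
        exact resMod_mul_of_dvd W p (M₀ * 2) 2 Nat.prime_two (dvd_mul_left 2 M₀)
          (resMod_mul_of_not_dvd W p M₀ 2 Nat.prime_two h2M₀ hres)
  -- (ii) the odd squares
  obtain ⟨M₂, hM₂0, h4₂, h8₂, hpM₂, hsq₂, hres₂⟩ :=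
    odd_squares p hp2 hT W hΔ hW hirr M₁ M₁ le_rfl hM₁0 h4 h8 hpM₁ hcube₁ hres₁
  -- (iii) one `2`
  obtain ⟨M₃, rfl⟩ : ∃ M₃, M₂ = M₃ * 2 := by
    obtain ⟨c, hc⟩ := h4₂
    exact ⟨2 * c, by rw [hc]; ring⟩
  have hM₃0 : M₃ ≠ 0 := by
    rintro rfl
    exact hM₂0 (zero_mul 2)
  have h2M₃ : 2 ∣ M₃ := by
    have : (2 : ℕ) * 2 ∣ M₃ * 2 := by simpa using h4₂
    exact (Nat.mul_dvd_mul_iff_right (by norm_num)).1 this
  have h4M₃ : ¬ 4 ∣ M₃ := by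
    intro h
    apply h8₂
    have : (4 : ℕ) * 2 ∣ M₃ * 2 := Nat.mul_dvd_mul h dvd_rfl
    simpa using this
  have hres₃ : W.IsResiduallyModularOfLevel p M₃ :=
    sq_at_of_new p hp2 W hΔ hW hirr M₃ 2 Nat.prime_two h2p hM₃0
      (fun A hA => h2 M₃ h2M₃ h4M₃ A hA) h2M₃ hres₂
  have hMsq : Squarefree M₃ := by
    rw [Nat.squarefree_iff_prime_squarefree]
    intro r hr hrr
    by_cases hr2 : r = 2
    · subst hr2
      exact h4M₃ (by simpa using hrr)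
    · exact hsq₂ r hr hr2 (by rw [pow_two]; exact hrr.mul_right 2)
  -- (iv) the squarefree levels
  exact llec_sqfree h38 h39 p hp2 W hΔ hW hcard₁ hker hirr M₃ M₃ le_rfl hMsq hres₃

end Fermat.Agent.S59.LL.H40
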