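/-
S59, package LL (helper40): the CLOSING CHAIN of level lowering at `p = 3` and `p = 5`.

`LL.H40.LLec0At p` (the input of `S59.Asm.H40.stmt_LIFTWIRE0`, hence of S59) from the packages
which are still open:

* (T′) of SQ at the tame levels (`SQ.H58.Stmt_TorSpanSqTame`, coordinator helper58);
* SQ at `q = 2` for `p = 5` (`LL.H40.SqNewTwoAt 5`, the leaves UP, helper77);
* the two Hecke-Galois cores of PIVOT (`L.Pivot.Stmt_PivotCoreB`, `L.Pivot3.Stmt_PivotCoreBA`).

Plugged in: REG at the tame levels (`SQ.H16.stmt_Reg11Tame`, helper16), B2 at all levels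
(`SQ.H87.stmt_CPow2002All`, helper87), (E) and (R) of SQ (inside `SQ.H58.sqNewTameAt_of`), SQ at
`q = 2` for `p = 3` (`SQ23.H63.sqNewTwo3`, the `S₃`-cover `X₀(4M) → X₀(M)`), S39 for semistable
curves at squarefree levels, the Mazur step and the induction on the level of S38
(`S38.H93.llec0At_of_cores`, helper93).

* `stmt_CPow2002Tame`, `sqNewTameAt_of_torSpan` : SQ at the tame levels from (T′);
* `llec0_three_of`, `llec0_five_of` : the two primes;
* `llec0_all_of` : `∀ p, p = 3 ∨ p = 5 → LLec0At p` from the open packages.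
-/
import Fermat.Agent.S38.H93_Final
import Fermat.Agent.S59.LL.SQ.H58_Tame
import Fermat.Agent.S59.LL.SQ.H16_RegStmt
import Fermat.Agent.S59.LL.SQ.H87_CPowAt
import Fermat.Agent.S59.LL.SQ23.H63_S3

set_option autoImplicit false

namespace Fermat.Agent.S59.LL.H40

/-- **B2 for the components `20`, `02` at the tame levels**: DONE (helper87, at all levels). -/
theorem stmt_CPow2002Tame : Fermat.Agent.S59.LL.SQ.H58.Stmt_CPow2002Tame := by
  intro p hp _ q M B k hB hq _ _ _ _ _ _ hqM A hA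
  exact Fermat.Agent.S59.LL.SQ.H87.stmt_CPow2002All p hp.pos q M B k hB hq hqM A hA

/-- **SQ at the tame levels, `q` odd**, from (T′) at the tame levels. -/
theorem sqNewTameAt_of_torSpan (hT : Fermat.Agent.S59.LL.SQ.H58.Stmt_TorSpanSqTame)
    (p : ℕ) (hp : p.Prime) (hp2 : p ≠ 2) : SqNewTameAt p :=
  Fermat.Agent.S59.LL.SQ.H58.sqNewTameAt_of Fermat.Agent.S59.LL.SQ.H16.stmt_Reg11Tame
    stmt_CPow2002Tame hT p hp hp2

/-- **Level lowering at `p = 3`** from (T′) at the tame levels and the PIVOT cores. -/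
theorem llec0_three_of (hT : Fermat.Agent.S59.LL.SQ.H58.Stmt_TorSpanSqTame)
    (hPC : Fermat.Agent.L.Pivot.Stmt_PivotCoreB)
    (hPCA : Fermat.Agent.L.Pivot3.Stmt_PivotCoreBA) : LLec0At 3 :=
  Fermat.Agent.S38.H93.llec0At_of_cores 3
    (sqNewTameAt_of_torSpan hT 3 Nat.prime_three (by norm_num))
    Fermat.Agent.S59.LL.SQ23.H63.sqNewTwo3 hPC hPCA

/-- **Level lowering at `p = 5`** from (T′) at the tame levels, SQ at `q = 2` and the PIVOT
cores. -/
theorem llec0_five_of (hT : Fermat.Agent.S59.LL.SQ.H58.Stmt_TorSpanSqTame)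
    (hTwo5 : SqNewTwoAt 5)
    (hPC : Fermat.Agent.L.Pivot.Stmt_PivotCoreB)
    (hPCA : Fermat.Agent.L.Pivot3.Stmt_PivotCoreBA) : LLec0At 5 :=
  Fermat.Agent.S38.H93.llec0At_of_cores 5
    (sqNewTameAt_of_torSpan hT 5 Nat.prime_five (by norm_num)) hTwo5 hPC hPCA

/-- **Level lowering at `p = 3` and `p = 5`** from the open packages. -/
theorem llec0_all_of (hT : Fermat.Agent.S59.LL.SQ.H58.Stmt_TorSpanSqTame)
    (hTwo5 : SqNewTwoAt 5)
    (hPC : Fermat.Agent.L.Pivot.Stmt_PivotCoreB)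
    (hPCA : Fermat.Agent.L.Pivot3.Stmt_PivotCoreBA) :
    ∀ p : ℕ, p = 3 ∨ p = 5 → LLec0At p := by
  rintro p (rfl | rfl)
  · exact llec0_three_of hT hPC hPCA
  · exact llec0_five_of hT hTwo5 hPC hPCA

end Fermat.Agent.S59.LL.H40
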