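/-
S59, package LL (helper40): level lowering at `p = 3` and `p = 5`, UNCONDITIONAL.

`llec0_all : ∀ p, p = 3 ∨ p = 5 → LL.H40.LLec0At p` is the input of
`S59.Final.H53.s59_of_llec0` (helper2, helper53), hence of the frozen statement S59.

The four inputs of `LL.H40.llec0_all_of` (`LL/H40_LLChain.lean`):

* (T′) of SQ at the tame levels : `SQ.H58.stmt_TorSpanSqTame` (helper58; ST-RANK helper20 with
  helpers 64, 56, 69, 83; T3-GLUE helper46; GEN-MOD helper84; GENLOW helper92, helper89; PB-GLUE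
  helper86; TI3 helper96; KUM-SPAN helper35);
* SQ at `q = 2` for `p = 5`     : `SQ.H77.sqNewTwoAt_of_torSpanTame` (helper77; the leaves UP of
  helper38, helper50, helper94);
* the PIVOT core, `p ≥ 5`       : `S43.BadQ.pivotCoreB_of_s36_geom` (helper37, helper3) on Carayol's
  theorem (`S58.H81.stmt_S36_of_nuCoreTame`, `S36.NU.H10.nuCoreTame`) and PV-GEOM
  (`L.Pivot.Geom.stmt_PVGeom2_final`, helper19, helper59);
* the PIVOT core with auxiliary primes, `p = 3` : `L.Pivot3.H11.pivotCoreBA_closed2` (helper11,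
  helper75).
-/
import Fermat.Agent.S59.LL.H40_LLChain
import Fermat.Agent.S59.LL.SQ.H58_SqTame
import Fermat.Agent.S59.LL.SQ.H77_UpWireTop
import Fermat.Agent.S43.Final5
import Fermat.Agent.S58.H81_Chain
import Fermat.Agent.S36.NU.H10_Core
import Fermat.Agent.L.Pivot.Geom.H19_Top
import Fermat.Agent.L.Pivot3.H11_ChainAClosed

set_option autoImplicit false

namespace Fermat.Agent.S59.LL.H40

/-- **The PIVOT core** (`p ≥ 5`), unconditional: Carayol's theorem and PV-GEOM. -/
theorem stmt_PivotCoreB_closed : Fermat.Agent.L.Pivot.Stmt_PivotCoreB :=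
  Fermat.Agent.S43.BadQ.pivotCoreB_of_s36_geom
    (Fermat.Agent.S58.H81.stmt_S36_of_nuCoreTame Fermat.Agent.S36.NU.H10.nuCoreTame)
    Fermat.Agent.L.Pivot.Geom.stmt_PVGeom2_final

/-- **The PIVOT core with auxiliary primes** (`p = 3`), unconditional. -/
theorem stmt_PivotCoreBA_closed : Fermat.Agent.L.Pivot3.Stmt_PivotCoreBA :=
  Fermat.Agent.L.Pivot3.H11.pivotCoreBA_closed2 Fermat.Agent.L.Pivot.Geom.stmt_PVGeom2_final

/-- **SQ at `q = 2` for `p = 5`**, unconditional. -/
theorem sqNewTwoAt_five : SqNewTwoAt 5 :=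
  Fermat.Agent.S59.LL.SQ.H77.sqNewTwoAt_of_torSpanTame
    Fermat.Agent.S59.LL.SQ.H58.stmt_TorSpanSqTame 5 Nat.prime_five le_rfl

/-- **Level lowering at `p = 3` and `p = 5`**, unconditional: a semistable curve with `E[p]`
irreducible which is residually modular of a level `M₀` (`p² ∤ M₀`, `M₀` cube-free away from `p`)
is residually modular of a squarefree level at which `E[p]` is ramified at every prime `q ≠ p`
and not peu ramifiée at `p` if `p` divides it. -/
theorem llec0_all : ∀ p : ℕ, p = 3 ∨ p = 5 → LLec0At p :=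
  llec0_all_of Fermat.Agent.S59.LL.SQ.H58.stmt_TorSpanSqTame sqNewTwoAt_five
    stmt_PivotCoreB_closed stmt_PivotCoreBA_closed

end Fermat.Agent.S59.LL.H40
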