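import Fermat.Agent.S59.LL.Defs
import Fermat.Agent.S44.Final
import Fermat.Agent.S44.TateModP3

/-!
# S59, package LL, piece SQ (helper40): wiring of SQUARE removal

* `HasSqPartAt` : the abstract form of "BAD at `q²`" (Mazur's principle at `q²`, no exceptional
  case): a nonzero inertia-fixed non-Eisenstein eigenvector of `J` comes from level `N / q`.
* `Stmt_SqQ`   : `J₀(N)[p]` has this property at every `q² ∥ N`, `q ≠ p` (package SQ, geometric).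
* `Stmt_SQFix` : for a semistable curve the inertia group at `q ≠ p` fixes a nonzero vector of
  `E[p]`.
* `sq_of : Stmt_SqQ → Stmt_SQFix → Stmt_SQ`.
-/

set_option autoImplicit false

open WeierstrassCurve WeierstrassCurve.Affine WeierstrassCurve.Affine.Point
open scoped WeierstrassCurve.Affine

namespace Fermat.Agent.S59.LL

open Fermat.Agent.S44

/-- **BAD at `q²`, abstract form.**  Every nonzero inertia-fixed eigenvector with a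
non-Eisenstein system of eigenvalues comes from level `N / q`. -/
def HasSqPartAt {p : ℕ} (H : HeckeGaloisModule p) (N q : ℕ)
    (A : ValuationSubring (AlgebraicClosure ℚ)) : Prop :=
  ∀ (S : Finset ℕ) (t : ℕ → ℤ) (x : H.J), x ≠ 0 →
    (∀ σ ∈ A.inertiaSubgroupIn ℚ, H.gal σ x = x) →
    (∀ ℓ : ℕ, ℓ.Prime → ℓ ∉ S → ¬ ℓ ∣ N → ℓ ≠ p → H.T ℓ x = ((t ℓ : ℤ) : ZMod p) • x) →
    (∃ ℓ : ℕ, ℓ.Prime ∧ ℓ ∉ S ∧ ¬ ℓ ∣ N ∧ ℓ ≠ p ∧ ((t ℓ : ℤ) : ZMod p) ≠ 1 + (ℓ : ZMod p)) →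
    ∃ (g : CuspForm (CongruenceSubgroup.Gamma0 (N / q)) 2) (𝔪 : Ideal ZBar),
      g.IsNormalizedEigenform ∧ 𝔪.IsMaximal ∧ (p : ZBar) ∈ 𝔪 ∧
      ∀ ℓ : ℕ, ℓ.Prime → ℓ ∉ S → ¬ ℓ ∣ N → ℓ ≠ p →
        ∃ a : ZBar, (a : ℂ) = ModularFormClass.qCoeff g ℓ ∧ a - ((t ℓ : ℤ) : ZBar) ∈ 𝔪

/-- **Package SQ (geometric).**  The structure of `J₀(N)[p]` at a place over a prime `q ≠ p`
with `q² ∥ N`. -/
def Stmt_SqQ : Prop :=
  ∀ (p : ℕ), p.Prime → p ≠ 2 → ∀ (N : ℕ) [NeZero N] (q : ℕ), q.Prime → q ≠ p →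
    q ^ 2 ∣ N → ¬ q ^ 3 ∣ N →
    ∀ A : ValuationSubring (AlgebraicClosure ℚ), A.LiesOverPrime q →
      HasSqPartAt (jzModule N p) N q A

/-- **SQ-FIX.**  Semistable at `q ≠ p`: the inertia group at `q` fixes a nonzero vector of
`E[p]`. -/
def Stmt_SQFix : Prop :=
  ∀ (p : ℕ), p.Prime → ∀ (W : WeierstrassCurve ℤ), W.Δ ≠ 0 → W.IsSemistableModel →
    ∀ (q : ℕ), q.Prime → q ≠ p →
    ∀ A : ValuationSubring (AlgebraicClosure ℚ), A.LiesOverPrime q →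
      ∃ v : Tors (W.map (Int.castRingHom ℚ)) p, v ≠ 0 ∧
        ∀ σ : GQ, σ ∈ A.inertiaSubgroupIn ℚ → σ • v = v

/-- **SQUARE removal from the two packages.** -/
theorem sq_of (h1 : Stmt_SqQ) (h2 : Stmt_SQFix) : Stmt_SQ := by
  intro p hpF hp2 W hΔ hW hirr M q hq hqp hq2 hq3 hres
  have hp : p.Prime := hpF.out
  obtain ⟨f, 𝔪, hf, h𝔪, hp𝔪, hcong⟩ := hres
  have hM0 : M ≠ 0 := by
    rintro rfl
    exact hq3 (dvd_zero _)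
  have hMpos : 0 < M := Nat.pos_of_ne_zero hM0
  have : NeZero M := ⟨hM0⟩
  set E : WeierstrassCurve ℚ := W.map (Int.castRingHom ℚ) with hE
  have hWE : W.IsIntegralModelOf E := ⟨1, one_smul _ _⟩
  have : E.IsElliptic := by
    refine ⟨isUnit_iff_ne_zero.mpr ?_⟩
    rw [hE, WeierstrassCurve.map_Δ]
    simpa using hΔ
  obtain ⟨A, hAq⟩ := stmt_PlaceOver q hq
  obtain ⟨hcont, hES, hsupp⟩ := stmt_TateModP p hp hp2 M
  set S : Finset ℕ := W.Δ.natAbs.primeFactors with hS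
  have hnat : W.Δ.natAbs ≠ 0 := Int.natAbs_ne_zero.mpr hΔ
  have hgood : ∀ ℓ : ℕ, ℓ.Prime → ℓ ∉ S → W.IsGoodPrimeFor ℓ := by
    intro ℓ hℓ hℓS hdvd
    apply hℓS
    rw [hS, Nat.mem_primeFactors]
    exact ⟨hℓ, Int.natCast_dvd.mp hdvd, hnat⟩
  have hbad : ∀ ℓ : ℕ, W.IsGoodPrimeFor ℓ → ℓ ∉ S := by
    intro ℓ hg hmem
    rw [hS, Nat.mem_primeFactors] at hmem
    exact hg (Int.natCast_dvd.mpr hmem.2.1)
  obtain ⟨x, hx0, hx⟩ := hsupp f 𝔪 S (fun ℓ => W.apOfModel ℓ) hf h𝔪 hp𝔪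
    (fun ℓ hℓ hℓS hℓN hℓp => hcong ℓ hℓ (hgood ℓ hℓ hℓS) hℓN hℓp)
  obtain ⟨ι, hinj, hequiv, hT⟩ := Fermat.Agent.L.H52.recovery p hp hp2 M hMpos
    (jzModule M p) hcont hES E W hWE hirr S hgood x hx0 hx
  obtain ⟨v, hv0, hvfix⟩ := h2 p hp W hΔ hW q hq hqp A hAq
  have hNE : ∃ ℓ : ℕ, ℓ.Prime ∧ ℓ ∉ S ∧ ¬ ℓ ∣ M ∧ ℓ ≠ p ∧
      ((W.apOfModel ℓ : ℤ) : ZMod p) ≠ 1 + (ℓ : ZMod p) := by
    have h := Fermat.Agent.S41.H19.stmt_I3 E W hWE p M hp hMpos hirr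
    by_contra hcon
    apply h
    intro ℓ hℓ hℓW hℓN hℓp
    by_contra hne
    exact hcon ⟨ℓ, hℓ, hbad ℓ hℓW, hℓN, hℓp, hne⟩
  obtain ⟨g, 𝔪', hg, h𝔪', hp𝔪', hgc⟩ := h1 p hp hp2 M q hq hqp hq2 hq3 A hAq S
    (fun ℓ => W.apOfModel ℓ) (ι v)
    (fun h => hv0 (hinj (by rw [h, _root_.map_zero])))
    (fun σ hσ => by rw [← hequiv, hvfix σ hσ])
    (fun ℓ hℓ hℓS hℓN hℓp => hT ℓ hℓ hℓS hℓN hℓp v) hNE
  refine ⟨g, 𝔪', hg, h𝔪', hp𝔪', fun ℓ hℓ hℓgood hℓMq hℓp => ?_⟩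
  have hqMq : q ∣ M / q := by
    obtain ⟨k, hk⟩ := hq2
    refine ⟨k, ?_⟩
    rw [hk, pow_two, mul_assoc, Nat.mul_div_cancel_left _ hq.pos]
  have hℓM : ¬ ℓ ∣ M := by
    intro hd
    have hqM : q ∣ M := (dvd_pow_self q two_ne_zero).trans hq2
    rw [← Nat.div_mul_cancel hqM] at hd
    rcases (Nat.Prime.dvd_mul hℓ).1 hd with h | h
    · exact hℓMq h
    · have : ℓ = q := (Nat.prime_dvd_prime_iff_eq hℓ hq).1 h
      exact hℓMq (this ▸ hqMq)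
  exact hgc ℓ hℓ (hbad ℓ hℓgood) hℓM hℓp

end Fermat.Agent.S59.LL
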